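import Fermat.Agent.FiniteKakeya.Basic
import Mathlib.RingTheory.Polynomial.UniqueFactorization
import Mathlib.Algebra.MvPolynomial.Nilpotent
import Mathlib.Algebra.MvPolynomial.NoZeroDivisors
import Mathlib.RingTheory.MvPolynomial.Homogeneous
import Mathlib.Tactic

/-!
# Bézout's inequality for plane curves

Two coprime plane curves of degrees `m` and `n` meet in at most `m n` points, affinely and
projectively, over every field.
-/

set_option autoImplicit false

noncomputable section

open MvPolynomial Module Finset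

namespace FA.BezoutCurves

variable {K : Type*} [Field K] {σ : Type*}

theorem choose_two_identity (e m n : ℕ) :
    (e + m + n + 2).choose 2 + (e + 2).choose 2 =
      (e + m + 2).choose 2 + (e + n + 2).choose 2 + m * n := by
  have h : ∀ k : ℕ, 2 * (k + 2).choose 2 = (k + 2) * (k + 1) := fun k => by
    rw [mul_comm 2, ← Nat.add_one_mul_choose_eq (k + 1) 1, Nat.choose_one_right]
  nlinarith [h (e + m + n), h e, h (e + m), h (e + n)]

/-- The dimension count behind Bézout's inequality, for a graded family `V` of subspaces of the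
polynomial ring and an evaluation `ev` at the points. -/
theorem card_le_mul (V : ℕ → Submodule K (MvPolynomial σ K)) [∀ k, FiniteDimensional K (V k)]
    (hdim : ∀ k, finrank K (V k) = (k + 2).choose 2)
    (hmul : ∀ i j, ∀ a ∈ V i, ∀ b ∈ V j, a * b ∈ V (i + j))
    {m n : ℕ} {f g : MvPolynomial σ K} (hf : f ∈ V m) (hg : g ∈ V n)
    (hdiv : ∀ k c, g * c ∈ V (k + n) → c ∈ V k) (hg0 : g ≠ 0) (hcop : IsRelPrime f g)
    {ι : Type*} [Fintype ι] (ev : MvPolynomial σ K →ₗ[K] ι → K)
    (hevf : ∀ a, ev (f * a) = 0) (hevg : ∀ a, ev (g * a) = 0) (e : ℕ)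
    (hsurj : ∀ v : ι → K, ∃ p ∈ V (e + m + n), ev p = v) : Fintype.card ι ≤ m * n := by
  let Φ : V (e + n) × V (e + m) →ₗ[K] V (e + m + n) :=
    LinearMap.codRestrict _
      ((LinearMap.mulLeft K f ∘ₗ (V (e + n)).subtype).coprod
        (LinearMap.mulLeft K g ∘ₗ (V (e + m)).subtype))
      fun ab => by
        refine Submodule.add_mem _ ?_ ?_
        · simpa [show m + (e + n) = e + m + n by ring] using hmul m _ f hf _ ab.1.2
        · simpa [show n + (e + m) = e + m + n by ring] using hmul n _ g hg _ ab.2.2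
  let Ψ : V e →ₗ[K] V (e + n) × V (e + m) :=
    (LinearMap.codRestrict _ (LinearMap.mulLeft K g ∘ₗ (V e).subtype) fun c => by
        simpa [add_comm n e] using hmul n _ g hg _ c.2).prod
      (LinearMap.codRestrict _ (-(LinearMap.mulLeft K f ∘ₗ (V e).subtype)) fun c => by
        simpa [add_comm m e] using hmul m _ f hf _ c.2)
  let ev' : V (e + m + n) →ₗ[K] ι → K := ev ∘ₗ (V (e + m + n)).subtype
  have h1 : finrank K (LinearMap.ker Φ) ≤ (e + 2).choose 2 := by
    rw [← hdim e]
    refine (Submodule.finrank_mono ?_).trans (LinearMap.finrank_range_le Ψ)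
    rintro ⟨⟨a, ha⟩, ⟨b, hb⟩⟩ hab
    have h : f * a + g * b = 0 := congrArg Subtype.val (LinearMap.mem_ker.1 hab)
    obtain ⟨c, rfl⟩ : g ∣ a :=
      IsRelPrime.dvd_of_dvd_mul_left hcop.symm ⟨-b, by linear_combination h⟩
    have hb' : b = -(f * c) := mul_left_cancel₀ hg0 (by linear_combination h)
    exact ⟨⟨c, hdiv e c ha⟩, Prod.ext (Subtype.ext rfl) (Subtype.ext hb'.symm)⟩
  have h2 : LinearMap.range Φ ≤ LinearMap.ker ev' := by
    rintro _ ⟨⟨a, b⟩, rfl⟩
    show ev (f * (a : MvPolynomial σ K) + g * (b : MvPolynomial σ K)) = 0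
    rw [map_add, hevf, hevg, add_zero]
  have h3 : LinearMap.range ev' = ⊤ := LinearMap.range_eq_top.2 fun v => by
    obtain ⟨p, hp, hpv⟩ := hsurj v
    exact ⟨⟨p, hp⟩, hpv⟩
  have h4 := LinearMap.finrank_range_add_finrank_ker ev'
  rw [h3, finrank_top, finrank_fintype_fun_eq_card, hdim] at h4
  have h5 := LinearMap.finrank_range_add_finrank_ker Φ
  rw [finrank_prod, hdim, hdim] at h5
  have h6 := Submodule.finrank_mono h2
  have h7 := choose_two_identity e m n
  omega

/-- **Bézout's inequality**, affine form. -/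
theorem card_common_zeros {f g : MvPolynomial (Fin 2) K} (hcop : IsRelPrime f g)
    (S : Finset (Fin 2 → K)) (hS : ∀ p ∈ S, eval p f = 0 ∧ eval p g = 0) :
    #S ≤ f.totalDegree * g.totalDegree := by
  classical
  rcases eq_or_ne g 0 with rfl | hg0
  · obtain ⟨c, hc, rfl⟩ :=
      MvPolynomial.isUnit_iff_eq_C_of_isReduced.1 (isRelPrime_zero_right.1 hcop)
    rw [Finset.card_eq_zero.2 (eq_empty_of_forall_notMem fun p hp =>
      hc.ne_zero (by simpa using (hS p hp).1))]
    exact Nat.zero_le _
  let V : ℕ → Submodule K (MvPolynomial (Fin 2) K) := fun k => restrictTotalDegree (Fin 2) K k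
  have hmem : ∀ {k} {p : MvPolynomial (Fin 2) K}, p ∈ V k ↔ p.totalDegree ≤ k := fun {k p} =>
    mem_restrictTotalDegree _ _ _
  let ev : MvPolynomial (Fin 2) K →ₗ[K] (S → K) :=
    LinearMap.pi fun p => (MvPolynomial.aeval (p : Fin 2 → K)).toLinearMap
  have hev : ∀ a (p : S), ev a p = eval (p : Fin 2 → K) a := fun a p => rfl
  rw [← Fintype.card_coe S]
  refine card_le_mul V (fun k => by rw [FA.FiniteKakeya.finrank_totalDegree_le, add_comm])
    (fun i j a ha b hb => hmem.2 ((totalDegree_mul a b).trans (Nat.add_le_add (hmem.1 ha)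
      (hmem.1 hb)))) (hmem.2 le_rfl) (hmem.2 le_rfl) (fun k c hc => hmem.2 ?_) hg0 hcop ev
    (fun a => funext fun p => by simp [hev, (hS p p.2).1])
    (fun a => funext fun p => by simp [hev, (hS p p.2).2]) #S fun v => ?_
  · rcases eq_or_ne c 0 with rfl | hc0
    · simp
    · have := hmem.1 hc
      rw [totalDegree_mul_of_isDomain hg0 hc0] at this
      omega
  · have hsep : ∀ p q : Fin 2 → K, ∃ l : MvPolynomial (Fin 2) K, l.totalDegree ≤ 1 ∧
        eval q l = 0 ∧ (p ≠ q → eval p l ≠ 0) := by
      intro p q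
      rcases eq_or_ne p q with rfl | h
      · exact ⟨0, by simp, by simp, fun h => absurd rfl h⟩
      obtain ⟨i, hi⟩ := Function.ne_iff.1 h
      exact ⟨X i - C (q i), (totalDegree_sub_C_le _ _).trans (totalDegree_X i).le, by simp,
        fun _ => by simpa [sub_eq_zero] using hi⟩
    choose l hl hlq hlp using hsep
    let D : S → MvPolynomial (Fin 2) K := fun p => ∏ q ∈ S.erase p, l p q
    have hD : ∀ p : S, (D p).totalDegree ≤ #S := fun p =>
      (totalDegree_finsetProd _ _).trans ((sum_le_sum fun q _ => hl p q).trans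
        (by simp))
    refine ⟨∑ p : S, C (v p / eval (p : Fin 2 → K) (D p)) * D p, Submodule.sum_mem _ fun p _ =>
      hmem.2 ((totalDegree_mul _ _).trans (by rw [totalDegree_C]; linarith only [hD p])),
      funext fun x => ?_⟩
    rw [hev, map_sum, Fintype.sum_eq_single x]
    · have : eval (x : Fin 2 → K) (D x) ≠ 0 := by
        simp only [D, map_prod, prod_ne_zero_iff, mem_erase]
        exact fun q hq => hlp _ _ (Ne.symm hq.1)
      rw [map_mul, eval_C, div_mul_cancel₀ _ this]
    · intro p hp
      have : eval (x : Fin 2 → K) (D p) = 0 := by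
        simp only [D, map_prod]
        exact prod_eq_zero (mem_erase.2 ⟨fun h => hp (Subtype.ext h).symm, x.2⟩) (hlq _ _)
      simp [this]

theorem finrank_homogeneous (k : ℕ) :
    finrank K (homogeneousSubmodule (Fin 3) K k) = (k + 2).choose 2 := by
  classical
  rw [homogeneousSubmodule_eq_finsupp_supported]
  change finrank K (restrictSupport K {d : Fin 3 →₀ ℕ | d.degree = k}) = _
  rw [finrank_eq_nat_card_basis (basisRestrictSupport K _), Nat.card_coe_set_eq,
    show {d : Fin 3 →₀ ℕ | d.degree = k} =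
      ((univ : Finset (Fin 3)).finsuppAntidiag k : Set (Fin 3 →₀ ℕ)) from ?_,
    Set.ncard_coe_finset, card_finsuppAntidiag_nat_eq_choose, card_univ, Fintype.card_fin,
    show 3 + k - 1 = k + 2 by omega, Nat.choose_symm_add]
  ext d
  simp [Finsupp.degree_eq_sum]

theorem isHomogeneous_of_mul {g c : MvPolynomial σ K} {n k : ℕ} (hg : g.IsHomogeneous n)
    (hg0 : g ≠ 0) (h : (g * c).IsHomogeneous (k + n)) : c.IsHomogeneous k := by
  classical
  have hz : ∀ i ≠ k, homogeneousComponent i c = 0 := by
    intro i hi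
    by_cases hin : i ∈ range (c.totalDegree + 1)
    · have e := congrArg (fun u => homogeneousComponent (i + n) (g * u))
        (sum_homogeneousComponent c)
      simp only [mul_sum, map_sum] at e
      rw [sum_eq_single_of_mem i hin fun j _ hj => by
          rw [homogeneousComponent_of_mem ((mem_homogeneousSubmodule _ _).2
            (hg.mul (homogeneousComponent_isHomogeneous j c))), if_neg (by omega)],
        homogeneousComponent_of_mem ((mem_homogeneousSubmodule _ _).2
          (hg.mul (homogeneousComponent_isHomogeneous i c))), if_pos (by omega),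
        homogeneousComponent_of_mem ((mem_homogeneousSubmodule _ _).2 h), if_neg (by omega)] at e
      exact (mul_eq_zero.1 e).resolve_left hg0
    · exact homogeneousComponent_eq_zero i c (by rw [mem_range] at hin; omega)
  rw [← sum_homogeneousComponent c]
  refine IsHomogeneous.sum _ _ _ fun i _ => ?_
  rcases eq_or_ne i k with rfl | hi
  · exact homogeneousComponent_isHomogeneous i c
  · rw [hz i hi]
    exact isHomogeneous_zero _ _ _

/-- **Bézout's inequality**, projective form. -/
theorem card_projective_zeros {f g : MvPolynomial (Fin 3) K} {m n : ℕ} (hf : f.IsHomogeneous m)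
    (hg : g.IsHomogeneous n) (hcop : IsRelPrime f g) {ι : Type*} [Fintype ι] (p : ι → Fin 3 → K)
    (hp0 : ∀ i, p i ≠ 0) (hp : ∀ i j, i ≠ j → ∀ c : K, p j ≠ c • p i)
    (hfz : ∀ i, eval (p i) f = 0) (hgz : ∀ i, eval (p i) g = 0) :
    Fintype.card ι ≤ m * n := by
  classical
  rcases eq_or_ne g 0 with rfl | hg0
  · obtain ⟨c, hc, rfl⟩ :=
      MvPolynomial.isUnit_iff_eq_C_of_isReduced.1 (isRelPrime_zero_right.1 hcop)
    rw [Fintype.card_eq_zero_iff.2 ⟨fun i => hc.ne_zero (by simpa using hfz i)⟩]
    exact Nat.zero_le _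
  let ev : MvPolynomial (Fin 3) K →ₗ[K] (ι → K) :=
    LinearMap.pi fun i => (MvPolynomial.aeval (p i)).toLinearMap
  have hev : ∀ a i, ev a i = eval (p i) a := fun a i => rfl
  have : ∀ k, FiniteDimensional K (homogeneousSubmodule (Fin 3) K k) := fun k =>
    FiniteDimensional.of_finrank_pos (by rw [finrank_homogeneous]; exact Nat.choose_pos (by omega))
  have hlin : ∀ i j : ι, ∃ l : MvPolynomial (Fin 3) K, l.IsHomogeneous 1 ∧
      eval (p i) l ≠ 0 ∧ (i ≠ j → eval (p j) l = 0) := by
    intro i j
    obtain ⟨a, ha⟩ := Function.ne_iff.1 (hp0 i)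
    rcases eq_or_ne i j with h | h
    · exact ⟨X a, isHomogeneous_X _ a, by simpa using ha, fun h' => absurd h h'⟩
    obtain ⟨b, hb⟩ := Function.ne_iff.1 (hp0 j)
    obtain ⟨d, hd⟩ : ∃ d, p i d * p j b - p i b * p j d ≠ 0 := by
      by_contra! h0
      refine hp j i h.symm (p i b / p j b) (funext fun d => ?_)
      simp only [Pi.smul_apply, smul_eq_mul]
      rw [div_mul_eq_mul_div, eq_div_iff hb]
      linear_combination h0 d
    exact ⟨C (p j b) * X d - C (p j d) * X b,
      (isHomogeneous_C_mul_X _ _).sub (isHomogeneous_C_mul_X _ _),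
      by simpa [mul_comm (p j b), mul_comm (p j d)] using hd, fun _ => by simp [mul_comm]⟩
  choose l hl hli hlj using hlin
  refine card_le_mul (homogeneousSubmodule (Fin 3) K) finrank_homogeneous
    (fun i j a ha b hb => (mem_homogeneousSubmodule _ _).2
      (((mem_homogeneousSubmodule _ _).1 ha).mul ((mem_homogeneousSubmodule _ _).1 hb)))
    ((mem_homogeneousSubmodule _ _).2 hf) ((mem_homogeneousSubmodule _ _).2 hg)
    (fun k c hc => (mem_homogeneousSubmodule _ _).2
      (isHomogeneous_of_mul hg hg0 ((mem_homogeneousSubmodule _ _).1 hc))) hg0 hcop ev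
    (fun a => funext fun i => by simp [hev, hfz i])
    (fun a => funext fun i => by simp [hev, hgz i]) (Fintype.card ι) fun v => ?_
  -- pad the product of the separating forms to the right degree
  let D : ι → MvPolynomial (Fin 3) K := fun i => (∏ j, l i j) * l i i ^ (m + n)
  have hD : ∀ i, (D i).IsHomogeneous (Fintype.card ι + m + n) := fun i => by
    have h := (IsHomogeneous.prod univ (l i) (fun _ => 1) fun j _ => hl i j).mul
      ((hl i i).pow (m + n))
    simpa [add_assoc] using h
  have hDi : ∀ i, eval (p i) (D i) ≠ 0 := fun i => by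
    simp only [D, map_mul, map_prod, map_pow]
    exact mul_ne_zero (prod_ne_zero_iff.2 fun j _ => hli i j) (pow_ne_zero _ (hli i i))
  refine ⟨∑ i, C (v i / eval (p i) (D i)) * D i, Submodule.sum_mem _ fun i _ =>
    (mem_homogeneousSubmodule _ _).2 ((hD i).C_mul _), funext fun x => ?_⟩
  rw [hev, map_sum, Fintype.sum_eq_single x]
  · rw [map_mul, eval_C, div_mul_cancel₀ _ (hDi x)]
  · intro i hi
    have : eval (p x) (D i) = 0 := by
      simp only [D, map_mul, map_prod]
      rw [prod_eq_zero (mem_univ x) (hlj i x hi), zero_mul]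
    simp [this]

end FA.BezoutCurves

end
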